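import Mathlib
import Fermat.Statements.S44
import Fermat.Agent.S30.E4.Fields
import Fermat.Prelude.Def_AlgebraicCurve_Correspondence
import Fermat.Prelude.Def_ModularCurve_HeckeOperator

/-!
# PROGRAM P (S44): Mazur's principle at `p` for the Frey curve — the strand contract

Statement-level file (helper88).  `result_of_contract` proves the frozen statement S44 from
four strand statements and two small inputs; every strand is a `Prop` in landed vocabulary.

Notation: `P` a Frey package, `p = P.p ≥ 5`, `N = N' * p` a conductor level with `p ∤ N'`,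
`A` a valuation subring of `ℚ̄` over `p`, `κ` its residue field, `I` its inertia group,
`FN M = ℚ̄(j(q^d) : d ∣ M) ⊆ ℚ̄((q))`.

* strand **G** (`GStatement`, Mathlib + S05 + Lib only): `E[p]` restricted to `I` has the shape
  `[χ a; 0 1]` with `a` the Kummer cocycle of a UNIT (`EShape`: peu ramifié).
* strand **W** (`WStatement`, the S29/S30/S35/S41 closures): either the eigensystem of `E` occurs
  at level `N'` (`p`-old exit) or there is a Galois-equivariant, Hecke-eigen embedding of `E[p]`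
  into the `p`-new Kummer classes of level `N' p` (`IsNewEmb`, function level).
* strand **L** (`LStatement`, the geometric core, with the Hecke step H inside): from `EShape`
  and `IsNewEmb`, a function `f̄` of the reduced curve of level `N'` whose divisor is divisible
  by `p` at EVERY place, with `θ f̄ / f̄ ≠ 0` a weight-2 Hecke eigen-series (`RegLog`).
* strand **D** (`DStatement`): `RegLog` gives a normalised eigenform of level `N'` congruent
  to the eigensystem (lifting of regular differentials + Deligne–Serre).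
-/

set_option autoImplicit false

open WeierstrassCurve WeierstrassCurve.Affine WeierstrassCurve.Affine.Point
open CuspForm ModularFormClass UpperHalfPlane
open HahnSeries ModularCurve AlgebraicCurve

namespace Fermat.Agent.S44.Contract

open Fermat.Agent.S30 Fermat.Agent.S30.Producer

local notation "GQb" => (AlgebraicClosure ℚ ≃ₐ[ℚ] AlgebraicClosure ℚ)

/-! ### Strand G: the shape of `E[p]` at `p` -/

/-- **`E[p]` at `p` is `[χ a; 0 1]` with `a` peu ramifié.**  There are `p`-torsion points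
`T ≠ 0` and `R ∉ ⟨T⟩`, a primitive `p`-th root of unity `ζ` and `b ≠ 0` with `b ^ p` a UNIT of
`A`, such that every `σ` in the inertia group of `A` acts by `σ ζ = ζ ^ k`, `σ T = k T`,
`σ b = ζ ^ j b`, `σ R = R + j T`. -/
def EShape (P : FreyPackage) (A : ValuationSubring Qb) : Prop :=
  ∃ (T R : (P.freyCurve⁄Qb).Point) (ζ b : Qb),
    P.p • T = 0 ∧ P.p • R = 0 ∧ T ≠ 0 ∧ (∀ k : ℕ, R ≠ k • T) ∧
    IsPrimitiveRoot ζ P.p ∧ b ≠ 0 ∧ b ^ P.p ∈ A ∧ (b ^ P.p)⁻¹ ∈ A ∧
    ∀ σ : GQb, σ ∈ A.inertiaSubgroupIn ℚ →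
      ∃ k j : ℕ, σ ζ = ζ ^ k ∧ σ • T = k • T ∧ σ b = ζ ^ j * b ∧ σ • R = R + j • T

/-- Strand G. -/
def GStatement : Prop :=
  ∀ P : FreyPackage, (P.p : ℤ) ∣ P.a * P.b * P.c →
    ∀ A : ValuationSubring Qb, A.LiesOverPrime P.p → EShape P A

/-! ### Strand W: the function-level embedding of `E[p]` -/

/-- **A Galois-equivariant Hecke-eigen embedding of `E[p]` into the `p`-new Kummer classes of
level `N' p`**, at function level: `ι Q` has divisor divisible by `p`; `ι` is additive,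
injective and Galois equivariant modulo constants and `p`-th powers; `T_ℓ (ι Q) ~ (ι Q)^{a_ℓ}`
at the good primes `ℓ ∤ N' p`; the norms of `ι Q` to level `N'` along both degeneracy maps
are trivial classes. -/
structure IsNewEmb (P : FreyPackage) (N' : ℕ) [NeZero N'] [NeZero P.p] (W : WeierstrassCurve ℤ)
    (ι : (P.freyCurve⁄Qb).Point → FN (N' * P.p)) : Prop where
  ne_zero : ∀ Q, P.p • Q = 0 → ι Q ≠ 0
  divBy : ∀ Q, P.p • Q = 0 → E4.DivBy (N' * P.p) P.p (ι Q)
  add : ∀ Q Q', P.p • Q = 0 → P.p • Q' = 0 → ∃ (c : Qb) (k : FN (N' * P.p)),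
    ι (Q + Q') = algebraMap Qb (FN (N' * P.p)) c * ι Q * ι Q' * k ^ P.p
  inj : ∀ Q, P.p • Q = 0 →
    (∃ (c : Qb) (k : FN (N' * P.p)), ι Q = algebraMap Qb (FN (N' * P.p)) c * k ^ P.p) → Q = 0
  gal : ∀ (σ : GQb) (Q), P.p • Q = 0 → ∃ (c : Qb) (k : FN (N' * P.p)),
    ι (σ • Q) = algebraMap Qb (FN (N' * P.p)) c * galF (N' * P.p) σ (ι Q) * k ^ P.p
  hecke : ∀ ℓ : ℕ, ℓ.Prime → ¬ ℓ ∣ N' * P.p → W.IsGoodPrimeFor ℓ → ∀ Q, P.p • Q = 0 →
    ∃ (c : Qb) (k : FN (N' * P.p)),
      E4.heckeFb (N' * P.p) ℓ (ι Q)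
        = algebraMap Qb (FN (N' * P.p)) c * ι Q ^ (W.apOfModel ℓ) * k ^ P.p
  normAlpha : ∀ Q, P.p • Q = 0 → ∃ (c : Qb) (g : FN N'),
    (letI := algebraAlong (heckeAlphaBar Qb N' P.p); Algebra.norm (FN N') (ι Q))
      = algebraMap Qb (FN N') c * g ^ P.p
  normBeta : ∀ Q, P.p • Q = 0 → ∃ (c : Qb) (g : FN N'),
    (letI := algebraAlong (heckeBetaBar Qb N' P.p); Algebra.norm (FN N') (ι Q))
      = algebraMap Qb (FN N') c * g ^ P.p

/-- Strand W: the `p`-old exit, or an embedding into the `p`-new classes. -/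
def WStatement : Prop :=
  ∀ (P : FreyPackage) (N' : ℕ) [NeZero N'] [NeZero P.p], ¬ P.p ∣ N' →
    P.IsConductorLevel (N' * P.p) →
    GaloisRepIsIrreducible (K := AlgebraicClosure ℚ) ℚ P.freyCurve P.p →
    P.ModularRepOfLevel (N' * P.p) →
    P.ModularRepOfLevel N' ∨
      ∃ (W : WeierstrassCurve ℤ) (ι : (P.freyCurve⁄Qb).Point → FN (N' * P.p)),
        W.IsIntegralModelOf P.freyCurve ∧ IsNewEmb P N' W ι

/-! ### The reduced function field and regular logarithmic classes -/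

/-- The reductions of the quotients of Gauss-integral `q`-series of `Fb N` (the residue field
of the Gauss valuation of `A` on `Fb N`, as a set). -/
def redSet (N : ℕ) (A : ValuationSubring Qb) :
    Set (LaurentSeries (IsLocalRing.ResidueField A)) :=
  {φ | ∃ U V : LaurentSeries A, Congr.incl A U ∈ E4.Fb N ∧ Congr.incl A V ∈ E4.Fb N ∧
    Congr.red A V ≠ 0 ∧ φ * Congr.red A V = Congr.red A U}

/-- The reduced function field of level `N` at `A`, inside `κ((q))`. -/
noncomputable def redField (N : ℕ) (A : ValuationSubring Qb) :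
    Subfield (LaurentSeries (IsLocalRing.ResidueField A)) :=
  Subfield.closure (redSet N A)

/-- **A regular logarithmic eigen-class of level `N'` modulo `p`.**  A nonzero function `f`
of the reduced curve of level `N'` whose order at EVERY valuation subring of the reduced
function field is divisible by `p` (`f = u h ^ p` with `u` a unit there), such that
`φ = θ f / f` is nonzero and is an eigen-series of the weight-2 Hecke operators `T_ℓ`
(`ℓ ∈ S` prime, `ℓ ∤ N' p`) with eigenvalues `a ℓ`. -/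
def RegLog (p N' : ℕ) (A : ValuationSubring Qb) (S : Set ℕ) (a : ℕ → ℤ) : Prop :=
  ∃ (f : redField N' A) (g φ : LaurentSeries (IsLocalRing.ResidueField A)),
    f ≠ 0 ∧
    (∀ w : ValuationSubring (redField N' A),
      ∃ u h : redField N' A, f = u * h ^ p ∧ u ∈ w ∧ u⁻¹ ∈ w) ∧
    (∀ n : ℤ, g.coeff n = (n : IsLocalRing.ResidueField A) *
      (f : LaurentSeries (IsLocalRing.ResidueField A)).coeff n) ∧
    φ * (f : LaurentSeries (IsLocalRing.ResidueField A)) = g ∧ φ ≠ 0 ∧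
    ∀ ℓ : ℕ, ℓ.Prime → ℓ ∈ S → ¬ ℓ ∣ N' * p → ∀ n : ℤ,
      φ.coeff (ℓ * n)
          + (ℓ : IsLocalRing.ResidueField A) * (if (ℓ : ℤ) ∣ n then φ.coeff (n / ℓ) else 0)
        = ((a ℓ : ℤ) : IsLocalRing.ResidueField A) * φ.coeff n

/-! ### Strand L: the geometric core -/

/-- Strand L (with the Hecke step H inside). -/
def LStatement : Prop :=
  ∀ (P : FreyPackage) (N' : ℕ) [NeZero N'] [NeZero P.p] (W : WeierstrassCurve ℤ),
    ¬ P.p ∣ N' → Squarefree N' →
    (∀ S : Finset ℕ, ∃ ℓ : ℕ, ℓ.Prime ∧ ℓ ∉ S ∧ W.IsGoodPrimeFor ℓ ∧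
      ¬ (P.p : ℤ) ∣ W.apOfModel ℓ - (ℓ + 1)) →
    ∀ A : ValuationSubring Qb, A.LiesOverPrime P.p → EShape P A →
    ∀ ι : (P.freyCurve⁄Qb).Point → FN (N' * P.p), IsNewEmb P N' W ι →
      RegLog P.p N' A {ℓ | W.IsGoodPrimeFor ℓ} (fun ℓ => W.apOfModel ℓ)

/-! ### Strand D: the exit -/

/-- Strand D: a regular logarithmic eigen-class of level `N'` modulo `p` lifts to a
normalised eigenform of level `N'` with congruent eigenvalues. -/
def DStatement : Prop :=
  ∀ (p N' : ℕ), p.Prime → 5 ≤ p → 0 < N' → ¬ p ∣ N' →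
    ∀ A : ValuationSubring Qb, A.LiesOverPrime p → ∀ (S : Set ℕ) (a : ℕ → ℤ),
      RegLog p N' A S a →
      ∃ (g : CuspForm (CongruenceSubgroup.Gamma0 N') 2) (𝔪 : Ideal (integralClosure ℤ ℂ)),
        g.IsNormalizedEigenform ∧ 𝔪.IsMaximal ∧ (p : integralClosure ℤ ℂ) ∈ 𝔪 ∧
        ∀ ℓ : ℕ, ℓ.Prime → ℓ ∈ S → ¬ ℓ ∣ N' → ℓ ≠ p →
          ∃ x : integralClosure ℤ ℂ, (x : ℂ) = ModularFormClass.qCoeff g ℓ ∧
            x - ((a ℓ : ℤ) : integralClosure ℤ ℂ) ∈ 𝔪

/-! ### The two small inputs -/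

/-- Non-Eisenstein primes (S41 `NonEis.Main.exists_prime_not_eisenstein`). -/
def NEStatement : Prop :=
  ∀ (P : FreyPackage) (W : WeierstrassCurve ℤ), W.IsIntegralModelOf P.freyCurve →
    GaloisRepIsIrreducible (K := AlgebraicClosure ℚ) ℚ P.freyCurve P.p →
    ∀ S : Finset ℕ, ∃ ℓ : ℕ, ℓ.Prime ∧ ℓ ∉ S ∧ W.IsGoodPrimeFor ℓ ∧
      ¬ (P.p : ℤ) ∣ W.apOfModel ℓ - (ℓ + 1)

/-- Existence of a place of `ℚ̄` over every prime. -/
def PlaceStatement : Prop :=
  ∀ p : ℕ, p.Prime → ∃ A : ValuationSubring Qb, A.LiesOverPrime p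

/-! ### The assembly -/

/-- **S44 from the strand contract.** -/
theorem result_of_contract (hG : GStatement) (hW : WStatement) (hL : LStatement)
    (hD : DStatement) (hNE : NEStatement) (hPl : PlaceStatement)
    (P : FreyPackage) {N : ℕ} (hcond : P.IsConductorLevel N) (hpN : P.p ∣ N)
    (hirr : GaloisRepIsIrreducible (K := AlgebraicClosure ℚ) ℚ P.freyCurve P.p)
    (hmod : P.ModularRepOfLevel N) :
    ∃ M : ℕ, M ∣ N ∧ ¬ P.p ∣ M ∧ P.ModularRepOfLevel M := by
  obtain ⟨N', rfl⟩ := hpN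
  have hN'p : P.p * N' = N' * P.p := Nat.mul_comm _ _
  rw [hN'p] at hcond hmod ⊢
  have hpos : 0 < N' * P.p := hcond.pos
  have hN'pos : 0 < N' := Nat.pos_of_mul_pos_right hpos
  have : NeZero N' := ⟨hN'pos.ne'⟩
  have : NeZero P.p := ⟨P.pp.ne_zero⟩
  have hpN' : ¬ P.p ∣ N' := by
    rintro ⟨m, rfl⟩
    exact hcond.sq_not_dvd P.pp ⟨m, by ring⟩
  have hsq : Squarefree N' := hcond.squarefree.squarefree_of_dvd (Dvd.intro _ rfl)
  refine ⟨N', Dvd.intro _ rfl, hpN', ?_⟩
  rcases hW P N' hpN' hcond hirr hmod with h | ⟨W, ι, hWm, hι⟩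
  · exact h
  obtain ⟨A, hA⟩ := hPl P.p P.pp
  have hE : EShape P A := hG P (hcond.p_dvd_abc (Dvd.intro_left _ rfl)) A hA
  have hR := hL P N' W hpN' hsq (hNE P W hWm hirr) A hA hE ι hι
  obtain ⟨g, 𝔪, hg, h𝔪, hp𝔪, hcong⟩ := hD P.p N' P.pp P.hp5 hN'pos hpN' A hA _ _ hR
  exact ⟨g, W, 𝔪, hg, hWm, h𝔪, hp𝔪, fun ℓ hℓ hgood hℓN hℓp => hcong ℓ hℓ hgood hℓN hℓp⟩

end Fermat.Agent.S44.Contract
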