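import Fermat.Agent.S44.Contract
import Fermat.Agent.S41.NonEis.Main
import Fermat.Agent.S54.Frobenius

/-!
# PROGRAM MR (S44): the two small inputs of the strand contract

* `neStatement : Contract.NEStatement` — non-Eisenstein good primes outside any finite set
  (S41 `NonEis.Main.exists_prime_not_eisenstein`, with trivial modulus `M = 1`).
* `placeStatement : Contract.PlaceStatement` — a valuation subring of `ℚ̄` over every prime
  (S54 `Frobenius.exists_liesOverPrime`).
-/

set_option autoImplicit false

namespace Fermat.Agent.S44.Inputs

open Fermat.Agent.S44.Contract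

/-- `NEStatement`: non-Eisenstein good primes outside every finite set. -/
theorem neStatement : NEStatement := by
  intro P W hW hirr S
  have hp2 : P.p ≠ 2 := by
    have := P.hp5
    omega
  obtain ⟨ℓ, hℓ, hℓS, hgood, -, -, hne⟩ :=
    Fermat.Agent.S41.NonEis.Main.exists_prime_not_eisenstein P.freyCurve hW P.pp hp2 hirr 1
      Nat.one_pos S
  exact ⟨ℓ, hℓ, hℓS, hgood, hne⟩

/-- `PlaceStatement`: every prime has a place of `ℚ̄` above it. -/
theorem placeStatement : PlaceStatement :=
  fun _ hp => Fermat.Agent.S54.Frobenius.exists_liesOverPrime hp

end Fermat.Agent.S44.Inputs
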